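import Mathlib

/-!
# Extending characters along integral ring maps; linear independence over `ℂ`
-/

set_option autoImplicit false

noncomputable section

namespace Fermat.Agent.Eigen

/-- A homomorphism into an algebraically closed field extends along an injective integral map. -/
theorem exists_ringHom_extend {A B K : Type*} [CommRing A] [CommRing B] [Field K] [IsAlgClosed K]
    (i : A →+* B) (hi : Function.Injective i) (hint : i.IsIntegral) (χ : A →+* K) :
    ∃ χ' : B →+* K, χ'.comp i = χ := by
  let _ : Algebra A B := i.toAlgebra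
  have : Algebra.IsIntegral A B := ⟨hint⟩
  set p := RingHom.ker χ with hp
  have : p.IsPrime := RingHom.ker_isPrime χ
  obtain ⟨Q, -, hQ, hQp⟩ := Ideal.exists_ideal_over_prime_of_isIntegral p (⊥ : Ideal B)
    (by
      intro x hx
      have : i x = 0 := hx
      rw [hi (this.trans (map_zero i).symm)]
      exact p.zero_mem)
  have := hQ
  let j : A ⧸ p →+* B ⧸ Q := Ideal.quotientMap Q i hQp.ge
  have hj : Function.Injective j := Ideal.quotientMap_injective' hQp.le
  let _ : Algebra (A ⧸ p) (B ⧸ Q) := j.toAlgebra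
  let _ : Algebra (A ⧸ p) K := (RingHom.kerLift χ).toAlgebra
  have : FaithfulSMul (A ⧸ p) (B ⧸ Q) := (faithfulSMul_iff_algebraMap_injective _ _).mpr hj
  have : FaithfulSMul (A ⧸ p) K :=
    (faithfulSMul_iff_algebraMap_injective _ _).mpr
      (RingHom.kerLift_injective χ)
  have : Algebra.IsIntegral (A ⧸ p) (B ⧸ Q) :=
    ⟨fun x => by
      obtain ⟨b, rfl⟩ := Ideal.Quotient.mk_surjective x
      obtain ⟨f, hfm, hf⟩ := hint b
      refine ⟨f.map (Ideal.Quotient.mk p), hfm.map _, ?_⟩
      rw [Polynomial.eval₂_map]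
      have h := congrArg (Ideal.Quotient.mk Q) hf
      rw [Polynomial.hom_eval₂, map_zero] at h
      exact h⟩
  have : Module.IsTorsionFree (A ⧸ p) (B ⧸ Q) :=
    Module.IsTorsionFree.of_smul_eq_zero fun a x h => by
      rw [Algebra.smul_def, mul_eq_zero] at h
      exact h.imp_left fun h0 => hj (h0.trans (map_zero j).symm)
  have : Algebra.IsAlgebraic (A ⧸ p) (B ⧸ Q) := Algebra.IsIntegral.isAlgebraic
  let φ : B ⧸ Q →ₐ[A ⧸ p] K := IsAlgClosed.lift
  refine ⟨φ.toRingHom.comp (Ideal.Quotient.mk Q), RingHom.ext fun a => ?_⟩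
  have h1 : (Ideal.Quotient.mk Q) (i a) = algebraMap (A ⧸ p) (B ⧸ Q) (Ideal.Quotient.mk p a) :=
    rfl
  simp only [RingHom.comp_apply, AlgHom.toRingHom_eq_coe, RingHom.coe_coe, h1, AlgHom.commutes]
  rfl

/-- Vectors in a `ℂ`-space which are `ℤ`-linearly independent and have integral coordinates with
respect to a separating family of functionals are `ℂ`-linearly independent. -/
theorem linearIndependent_complex_of_int_coord {V ι κ : Type*} [AddCommGroup V] [Module ℂ V]
    (v : ι → V) (co : κ → V →ₗ[ℂ] ℂ) (hsep : ∀ x, (∀ j, co j x = 0) → x = 0)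
    (hint : ∀ i j, ∃ m : ℤ, co j (v i) = (m : ℂ)) (hli : LinearIndependent ℤ v) :
    LinearIndependent ℂ v := by
  classical
  choose m hm using hint
  rw [linearIndependent_iff']
  intro s c hc i hi
  rw [← Module.forall_dual_apply_eq_zero_iff ℚ]
  intro φ
  obtain ⟨⟨d, hd⟩, hd'⟩ :=
    IsLocalization.exist_integer_multiples (nonZeroDivisors ℤ) s fun i => φ (c i)
  have hd0 : d ≠ 0 := nonZeroDivisors.ne_zero hd
  choose z hz using hd'
  let z' : ι → ℤ := fun i => if h : i ∈ s then z i h else 0
  have hz' : ∀ i ∈ s, (z' i : ℚ) = (d : ℚ) * φ (c i) := fun i hi => by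
    have h := hz i hi
    simp only [algebraMap_int_eq, eq_intCast, zsmul_eq_mul] at h
    simp [z', dif_pos hi, h]
  have key : ∑ i ∈ s, z' i • v i = 0 := by
    refine hsep _ fun j => ?_
    have h0 : ∑ i ∈ s, (m i j : ℚ) * φ (c i) = 0 := by
      have h := congrArg (co j) hc
      simp only [map_sum, map_smul, smul_eq_mul, hm, map_zero] at h
      have h' := congrArg φ h
      rw [map_sum, map_zero] at h'
      rw [← h']
      refine Finset.sum_congr rfl fun i _ => ?_
      rw [← zsmul_eq_mul, ← map_zsmul φ, zsmul_eq_mul, mul_comm]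
    rw [map_sum]
    have h1 : (∑ i ∈ s, z' i * m i j : ℤ) = 0 := by
      have h2 : ((∑ i ∈ s, z' i * m i j : ℤ) : ℚ) = 0 := by
        push_cast
        rw [Finset.sum_congr rfl fun i hi => by rw [hz' i hi, mul_assoc, mul_comm (φ (c i))],
          ← Finset.mul_sum, h0, mul_zero]
      exact_mod_cast h2
    rw [← Int.cast_zero (R := ℂ), ← h1, Int.cast_sum]
    refine Finset.sum_congr rfl fun i _ => ?_
    rw [map_zsmul, hm, zsmul_eq_mul, Int.cast_mul]
  have := linearIndependent_iff'.mp hli s z' key i hi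
  have h := hz' i hi
  rw [this, Int.cast_zero] at h
  exact (mul_eq_zero.mp h.symm).resolve_left (by exact_mod_cast hd0)

end Fermat.Agent.Eigen

end
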