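import Fermat.Agent.Eigen.Dictionary
import Fermat.Agent.Eigen.Extend
import Fermat.Prelude.Def_CuspForm_HeckeLocal

/-!
# Characters of the Hecke algebra come from normalized eigenforms

Under `CuspForm.HasIntegralStructure N 2` every ring homomorphism `heckeAlgebra N 2 S →+* ℂ`
is `eigenChar` of some normalized eigenform of level `N`.
-/

set_option autoImplicit false

noncomputable section

open CongruenceSubgroup ModularFormClass
open scoped IsMulCommutative

namespace Fermat.Agent.Eigen

variable {N : ℕ} [NeZero N]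

theorem moduleFinite_heckeAlgebra (hint : CuspForm.HasIntegralStructure N 2) (S : Set ℕ) :
    Module.Finite ℤ ↥(CuspForm.heckeAlgebra N 2 S) :=
  Module.Finite.equiv
    (AlgEquiv.ofBijective _ (CuspForm.latticeRestrictHom_bijective N S hint)).symm.toLinearEquiv

theorem moduleFree_heckeAlgebra (hint : CuspForm.HasIntegralStructure N 2) (S : Set ℕ) :
    Module.Free ℤ ↥(CuspForm.heckeAlgebra N 2 S) :=
  Module.Free.of_equiv
    (AlgEquiv.ofBijective _ (CuspForm.latticeRestrictHom_bijective N S hint)).symm.toLinearEquiv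

theorem finiteDimensional_cuspForm (hint : CuspForm.HasIntegralStructure N 2) :
    FiniteDimensional ℂ (CuspForm (Gamma0 N) 2) := by
  obtain ⟨s, hs⟩ := CuspForm.intLattice_fg N 2
  refine ⟨⟨s, ?_⟩⟩
  rw [← top_le_iff]
  have h : Submodule.span ℂ (CuspForm.intLattice N 2 : Set (CuspForm (Gamma0 N) 2)) = ⊤ := hint
  rw [← h, Submodule.span_le, ← hs]
  intro x hx
  exact Submodule.span_le_restrictScalars ℤ ℂ _ hx

omit [NeZero N] in
theorem exists_int_qCoeff_of_mem_intLattice {f : CuspForm (Gamma0 N) 2}
    (hf : f ∈ CuspForm.intLattice N 2) (n : ℕ) : ∃ m : ℤ, qCoeff f n = (m : ℂ) := by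
  induction hf using Submodule.span_induction with
  | mem x hx => exact hx n
  | zero => exact ⟨0, by rw [qCoeff_zero_form, Int.cast_zero]⟩
  | add x y _ _ hx hy =>
    obtain ⟨a, ha⟩ := hx
    obtain ⟨b, hb⟩ := hy
    exact ⟨a + b, by rw [qCoeff_add, ha, hb, Int.cast_add]⟩
  | smul r x _ hx =>
    obtain ⟨a, ha⟩ := hx
    refine ⟨r * a, ?_⟩
    rw [← qCoeffLin_apply, map_zsmul, qCoeffLin_apply, ha, zsmul_eq_mul, Int.cast_mul]

/-- `ℤ`-independent Hecke operators are `ℂ`-independent. -/
theorem linearIndependent_heckeAlgebra_complex (hint : CuspForm.HasIntegralStructure N 2)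
    {S : Set ℕ} {ι : Type*} (v : ι → ↥(CuspForm.heckeAlgebra N 2 S))
    (hv : LinearIndependent ℤ v) :
    LinearIndependent ℂ fun i => (v i : Module.End ℂ (CuspForm (Gamma0 N) 2)) := by
  refine linearIndependent_complex_of_int_coord _
    (fun (j : ↥(CuspForm.intLattice N 2) × ℕ) =>
      (qCoeffLin N 2 j.2) ∘ₗ LinearMap.applyₗ (j.1 : CuspForm (Gamma0 N) 2))
    (fun x hx => ?_) (fun i j => ?_) ?_
  · refine LinearMap.ext_on hint fun g hg => cuspForm_ext_qCoeff fun n => ?_
    rw [LinearMap.zero_apply, qCoeff_zero_form]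
    exact hx (⟨g, hg⟩, n)
  · exact exists_int_qCoeff_of_mem_intLattice
      (CuspForm.mem_intLattice_of_mem_heckeAlgebra one_le_two (v i).2 j.1.2) j.2
  · exact hv.map' (CuspForm.heckeAlgebra N 2 S).val.toLinearMap
      (LinearMap.ker_eq_bot.mpr Subtype.val_injective)

/-- If a character `χ` of a commutative ring of operators on a finite-dimensional space extends
linearly to the operators, then it has an eigenvector. -/
theorem exists_eigenvector_of_linearExtension {R V : Type*} [CommRing R] [AddCommGroup V]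
    [Module ℂ V] [FiniteDimensional ℂ V] (ρ : R →+* Module.End ℂ V) (χ : R →+* ℂ)
    (L : Module.End ℂ V →ₗ[ℂ] ℂ) (hL : ∀ t, L (ρ t) = χ t) :
    ∃ g : V, g ≠ 0 ∧ ∀ t, ρ t g = χ t • g := by
  set A : Subalgebra ℂ (Module.End ℂ V) := Algebra.adjoin ℂ (Set.range ρ) with hA
  have hspan : Subalgebra.toSubmodule A = Submodule.span ℂ (Set.range ρ) := by
    rw [hA, Algebra.adjoin_eq_span]
    exact congrArg (fun s : Submonoid (Module.End ℂ V) => Submodule.span ℂ (s : Set (Module.End ℂ V)))
      (Submonoid.closure_eq (MonoidHom.mrange (ρ : R →* Module.End ℂ V)))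
  have hmemA : ∀ x, x ∈ A → x ∈ Submodule.span ℂ (Set.range ρ) := fun x hx =>
    hspan.le hx
  have hmul : ∀ x ∈ Submodule.span ℂ (Set.range ρ), ∀ y ∈ Submodule.span ℂ (Set.range ρ),
      L (x * y) = L x * L y := by
    intro x hx y hy
    induction hx using Submodule.span_induction with
    | mem x hx =>
      obtain ⟨s, rfl⟩ := hx
      induction hy using Submodule.span_induction with
      | mem y hy =>
        obtain ⟨t, rfl⟩ := hy
        rw [← map_mul, hL, hL, hL, map_mul]
      | zero => simp
      | add y y' _ _ h h' => rw [mul_add, map_add, map_add, h, h', mul_add]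
      | smul c y _ h => rw [mul_smul_comm, map_smul, map_smul, h, smul_eq_mul, smul_eq_mul,
          mul_left_comm]
    | zero => simp
    | add x x' _ _ h h' => rw [add_mul, map_add, map_add, h, h', add_mul]
    | smul c x _ h => rw [smul_mul_assoc, map_smul, map_smul, h, smul_eq_mul, smul_eq_mul,
        mul_assoc]
  have : IsMulCommutative ↥A := Algebra.isMulCommutative_adjoin ℂ (by
    rintro _ ⟨s, rfl⟩ _ ⟨t, rfl⟩
    rw [← map_mul, ← map_mul, mul_comm])
  have hL1 : L 1 = 1 := by rw [← map_one ρ, hL, map_one]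
  let χC : ↥A →+* ℂ :=
    { toFun := fun x => L x
      map_one' := hL1
      map_zero' := map_zero L
      map_add' := fun x y => map_add L _ _
      map_mul' := fun x y => hmul _ (hmemA _ x.2) _ (hmemA _ y.2) }
  set m := RingHom.ker χC with hm
  have : m.IsPrime := RingHom.ker_isPrime χC
  have : IsNoetherianRing ↥A := IsNoetherianRing.of_finite ℂ _
  have : IsArtinianRing ↥A := IsArtinianRing.of_finite ℂ _
  have : Module.Finite ↥A V := Module.Finite.of_restrictScalars_finite ℂ _ _
  have hann : Module.annihilator ↥A V = ⊥ :=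
    le_bot_iff.mp fun x hx => Subtype.ext (LinearMap.ext fun f => Module.mem_annihilator.mp hx f)
  have hmin : m ∈ (Module.annihilator ↥A V).minimalPrimes := by
    rw [hann]
    exact ⟨⟨inferInstance, bot_le⟩, fun q hq hqm => by
      have := hq.1
      have : q.IsMaximal := Ideal.IsPrime.isMaximal' hq.1
      exact (Ideal.IsMaximal.eq_of_le this (Ideal.IsPrime.ne_top inferInstance) hqm).ge⟩
  obtain ⟨-, g, hg⟩ := isAssociatedPrime_iff.mp
    (Module.associatedPrimes.minimalPrimes_annihilator_subset_associatedPrimes _ _ hmin)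
  refine ⟨g, fun h0 => ?_, fun t => ?_⟩
  · have : (1 : ↥A) ∈ m := by
      rw [hg, Submodule.mem_colon_singleton, h0, smul_zero]
      exact Submodule.zero_mem _
    exact Ideal.IsPrime.ne_top inferInstance ((Ideal.eq_top_iff_one m).mpr this)
  · have hx : (⟨ρ t, Algebra.subset_adjoin ⟨t, rfl⟩⟩ - algebraMap ℂ ↥A (χ t) : ↥A) ∈ m := by
      rw [hm, RingHom.mem_ker]
      change L (ρ t - algebraMap ℂ (Module.End ℂ V) (χ t)) = 0
      rw [map_sub, Algebra.algebraMap_eq_smul_one, map_smul, hL, hL1, smul_eq_mul, mul_one,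
        sub_self]
    rw [hg, Submodule.mem_colon_singleton, Submodule.mem_bot] at hx
    exact sub_eq_zero.mp hx

/-- Every character of the Hecke algebra has a nonzero eigenvector. -/
theorem exists_eigenvector (hint : CuspForm.HasIntegralStructure N 2) {S : Set ℕ}
    (χ : ↥(CuspForm.heckeAlgebra N 2 S) →+* ℂ) :
    ∃ g : CuspForm (Gamma0 N) 2, g ≠ 0 ∧ ∀ t : ↥(CuspForm.heckeAlgebra N 2 S),
      (t : Module.End ℂ (CuspForm (Gamma0 N) 2)) g = χ t • g := by
  have := moduleFinite_heckeAlgebra hint S
  have := moduleFree_heckeAlgebra hint S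
  have := finiteDimensional_cuspForm hint
  let b := Module.Free.chooseBasis ℤ ↥(CuspForm.heckeAlgebra N 2 S)
  let ρ : ↥(CuspForm.heckeAlgebra N 2 S) →+* Module.End ℂ (CuspForm (Gamma0 N) 2) :=
    (CuspForm.heckeAlgebra N 2 S).val.toRingHom
  have hli : LinearIndependent ℂ fun i => ρ (b i) :=
    linearIndependent_heckeAlgebra_complex hint _ b.linearIndependent
  obtain ⟨L, hL⟩ := LinearMap.exists_extend
    ((Module.Basis.span hli).constr ℂ fun i => χ (b i))
  refine exists_eigenvector_of_linearExtension ρ χ L fun t => ?_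
  have hF : (L.toAddMonoidHom.comp ρ.toAddMonoidHom).toIntLinearMap =
      χ.toAddMonoidHom.toIntLinearMap := by
    refine b.ext fun i => ?_
    change L (ρ (b i)) = χ (b i)
    have h := LinearMap.congr_fun hL (Module.Basis.span hli i)
    simp only [LinearMap.comp_apply, Submodule.subtype_apply, Module.Basis.constr_basis] at h
    rwa [Module.Basis.span_apply] at h
  exact LinearMap.congr_fun hF t

/-- A character of a Hecke algebra extends to a larger one. -/
theorem exists_heckeChar_extend (hint : CuspForm.HasIntegralStructure N 2) {K : Type*} [Field K]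
    [IsAlgClosed K] {S S' : Set ℕ} (h : S' ⊆ S)
    (χ : ↥(CuspForm.heckeAlgebra N 2 S) →+* K) :
    ∃ χ' : ↥(CuspForm.heckeAlgebra N 2 S') →+* K,
      ∀ t, χ' (Subalgebra.inclusion (CuspForm.heckeAlgebra_mono h) t) = χ t := by
  have := moduleFinite_heckeAlgebra hint S'
  set i := (Subalgebra.inclusion (CuspForm.heckeAlgebra_mono (N := N) (k := 2) h)).toRingHom
  have hi : i.IsIntegral := fun x =>
    RingHom.IsIntegralElem.of_comp (g := i)
      (f := algebraMap ℤ ↥(CuspForm.heckeAlgebra N 2 S)) (by
        rw [RingHom.ext_int (i.comp _) (algebraMap ℤ ↥(CuspForm.heckeAlgebra N 2 S'))]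
        exact IsIntegral.of_finite ℤ x)
  obtain ⟨χ', hχ'⟩ := exists_ringHom_extend i (Subalgebra.inclusion_injective _) hi χ
  exact ⟨χ', fun t => RingHom.congr_fun hχ' t⟩

/-- Every complex character of the Hecke algebra away from `S` is the eigen-character of a
normalized eigenform of level `N`. -/
theorem exists_eigenform_of_char (hint : CuspForm.HasIntegralStructure N 2) {S : Set ℕ}
    (χ : ↥(CuspForm.heckeAlgebra N 2 S) →+* ℂ) :
    ∃ (f : CuspForm (Gamma0 N) 2) (hf : f.IsNormalizedEigenform), eigenChar hf S = χ := by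
  obtain ⟨χ', hχ'⟩ := exists_heckeChar_extend hint (Set.empty_subset S) χ
  obtain ⟨g, hg, hgt⟩ := exists_eigenvector hint χ'
  obtain ⟨f, hf, hfe, -⟩ := exists_eigenform_of_eigenvector χ' hg hgt
  refine ⟨f, hf, RingHom.ext fun t => ?_⟩
  rw [← eigenChar_inclusion hf (Set.empty_subset S) t, hfe]
  exact hχ' t

/-- A characteristic zero point of the Hecke algebra has the same kernel as the eigen-character
of some normalized eigenform. -/
theorem exists_eigenform_ker_eq (hint : CuspForm.HasIntegralStructure N 2) {S : Set ℕ}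
    {R : Type*} [CommRing R] [IsDomain R] [CharZero R]
    (χ : ↥(CuspForm.heckeAlgebra N 2 S) →+* R) :
    ∃ (f : CuspForm (Gamma0 N) 2) (hf : f.IsNormalizedEigenform),
      RingHom.ker (eigenChar hf S) = RingHom.ker χ := by
  have := moduleFinite_heckeAlgebra hint S
  let B := ↥(CuspForm.heckeAlgebra N 2 S) ⧸ RingHom.ker χ
  have : (RingHom.ker χ).IsPrime := RingHom.ker_isPrime χ
  have hmk : (RingHom.kerLift χ).comp (Int.castRingHom B) = Int.castRingHom R := RingHom.ext_int _ _
  have hiinj : Function.Injective (Int.castRingHom B) := by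
    refine Function.Injective.of_comp (f := RingHom.kerLift χ) ?_
    rw [← RingHom.coe_comp, hmk]
    exact (Int.castRingHom R).injective_int
  have : Module.Finite ℤ B := Module.Finite.of_surjective
    (Ideal.Quotient.mk (RingHom.ker χ)).toAddMonoidHom.toIntLinearMap Ideal.Quotient.mk_surjective
  have hint' : (Int.castRingHom B).IsIntegral := fun x => IsIntegral.of_finite ℤ x
  obtain ⟨ψ, -⟩ := exists_ringHom_extend (Int.castRingHom B) hiinj hint' (Int.castRingHom ℂ)
  have hψ : Function.Injective ψ := by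
    rw [RingHom.injective_iff_ker_eq_bot]
    have hprime : (RingHom.ker ψ).IsPrime := RingHom.ker_isPrime ψ
    have : Algebra.IsIntegral ℤ B := Algebra.IsIntegral.of_finite ℤ B
    refine Ideal.eq_bot_of_comap_eq_bot (R := ℤ) (le_bot_iff.mp fun n hn => ?_)
    have h : ψ (algebraMap ℤ B n) = 0 := hn
    simpa using h
  obtain ⟨f, hf, hfe⟩ := exists_eigenform_of_char hint (ψ.comp (Ideal.Quotient.mk (RingHom.ker χ)))
  refine ⟨f, hf, ?_⟩
  rw [hfe, ← RingHom.comap_ker, (RingHom.injective_iff_ker_eq_bot ψ).mp hψ,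
    ← RingHom.ker_eq_comap_bot, Ideal.mk_ker]

end Fermat.Agent.Eigen

end
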