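import Fermat.Agent.Eigen.QCoeff
import Fermat.Prelude.Def_CuspForm_HeckeAlgebra
import Fermat.Prelude.Def_FLTPrelim_ModularRep

/-!
# Normalized eigenforms and simultaneous Hecke eigenvectors

* `qCoeff_heckeTLin_eigenform`, `heckeTLin_eigenform`, `heckeULin_eigenform`:
  a normalized eigenform is an eigenvector of `T_ℓ`, `U_q` with eigenvalue its coefficient.
* `eigenChar hf S : heckeAlgebra N 2 S →+* ℂ` and `apply_eq_eigenChar_smul`.
* `exists_eigenform_of_eigenvector`: the converse.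
-/

set_option autoImplicit false

noncomputable section

open CongruenceSubgroup ModularFormClass

namespace Fermat.Agent.Eigen

variable {N : ℕ}

theorem heckeTLin_eigenform {f : CuspForm (Gamma0 N) 2} (hf : f.IsNormalizedEigenform) {p : ℕ}
    (hp : p.Prime) (hpN : ¬ p ∣ N) :
    CuspForm.heckeTLin 2 hp hpN f = qCoeff f p • f := by
  refine cuspForm_ext_qCoeff fun n => ?_
  rw [qCoeff_heckeTLin, qCoeff_smul]
  rcases eq_or_ne n 0 with rfl | hn
  · simp
  obtain ⟨r, m, hpm, rfl⟩ := Nat.exists_eq_pow_mul_and_not_dvd hn p hp.ne_one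
  have hco : ∀ s, Nat.Coprime (p ^ s) m := fun s =>
    Nat.Coprime.pow_left s (hp.coprime_iff_not_dvd.mpr hpm)
  rcases r with _ | r
  · simp only [pow_zero, one_mul]
    rw [if_neg hpm, add_zero, mul_comm m p,
      hf.qCoeff_mul_of_coprime p m (by simpa using hco 1)]
  · have h1 : p ^ (r + 1) * m * p = p ^ (r + 2) * m := by ring
    have h2 : p ^ (r + 1) * m / p = p ^ r * m := by
      rw [show p ^ (r + 1) * m = p * (p ^ r * m) by ring, Nat.mul_div_cancel_left _ hp.pos]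
    rw [if_pos (dvd_mul_of_dvd_left (dvd_pow_self p r.succ_ne_zero) m), h1, h2,
      hf.qCoeff_mul_of_coprime _ _ (hco (r + 2)), hf.qCoeff_mul_of_coprime _ _ (hco r),
      hf.qCoeff_mul_of_coprime _ _ (hco (r + 1)), hf.qCoeff_prime_pow_of_not_dvd p r hp hpN]
    norm_num
    ring

theorem heckeULin_eigenform [NeZero N] {f : CuspForm (Gamma0 N) 2} (hf : f.IsNormalizedEigenform)
    {p : ℕ} (hp : p.Prime) (hpN : p ∣ N) :
    CuspForm.heckeULin 2 hpN f = qCoeff f p • f := by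
  refine cuspForm_ext_qCoeff fun n => ?_
  rw [qCoeff_heckeULin, qCoeff_smul]
  rcases eq_or_ne n 0 with rfl | hn
  · simp
  obtain ⟨r, m, hpm, rfl⟩ := Nat.exists_eq_pow_mul_and_not_dvd hn p hp.ne_one
  have hco : ∀ s, Nat.Coprime (p ^ s) m := fun s =>
    Nat.Coprime.pow_left s (hp.coprime_iff_not_dvd.mpr hpm)
  rcases r with _ | r
  · simp only [pow_zero, one_mul]
    rw [mul_comm m p, hf.qCoeff_mul_of_coprime p m (by simpa using hco 1)]
  · have h1 : p ^ (r + 1) * m * p = p ^ (r + 2) * m := by ring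
    rw [h1, hf.qCoeff_mul_of_coprime _ _ (hco (r + 2)),
      hf.qCoeff_mul_of_coprime _ _ (hco (r + 1)), hf.qCoeff_prime_pow_of_dvd p r hp hpN]
    ring

section Char

variable [NeZero N]

theorem exists_apply_eq_smul {f : CuspForm (Gamma0 N) 2} (hf : f.IsNormalizedEigenform)
    {S : Set ℕ} (t : Module.End ℂ (CuspForm (Gamma0 N) 2))
    (ht : t ∈ CuspForm.heckeAlgebra N 2 S) : ∃ c : ℂ, t f = c • f := by
  induction ht using Algebra.adjoin_induction with
  | mem x hx =>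
    rcases hx with ⟨ℓ, hℓ, hℓN, -, rfl⟩ | ⟨q, hqN, hq, -, rfl⟩
    · exact ⟨_, heckeTLin_eigenform hf hℓ hℓN⟩
    · exact ⟨_, heckeULin_eigenform hf hq hqN⟩
  | algebraMap r => exact ⟨(r : ℂ), by simp [Int.cast_smul_eq_zsmul]⟩
  | add x y _ _ hx hy =>
    obtain ⟨a, ha⟩ := hx
    obtain ⟨b, hb⟩ := hy
    exact ⟨a + b, by rw [LinearMap.add_apply, ha, hb, add_smul]⟩
  | mul x y _ _ hx hy =>
    obtain ⟨a, ha⟩ := hx
    obtain ⟨b, hb⟩ := hy
    exact ⟨b * a, by rw [Module.End.mul_apply, hb, map_smul, ha, smul_smul]⟩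

theorem apply_eq_qCoeff_smul {f : CuspForm (Gamma0 N) 2} (hf : f.IsNormalizedEigenform)
    {S : Set ℕ} (t : Module.End ℂ (CuspForm (Gamma0 N) 2))
    (ht : t ∈ CuspForm.heckeAlgebra N 2 S) : t f = qCoeff ⇑(t f) 1 • f := by
  obtain ⟨c, hc⟩ := exists_apply_eq_smul hf t ht
  rw [hc, qCoeff_smul, hf.qCoeff_one, mul_one]

/-- The character of the Hecke algebra given by a normalized eigenform. -/
def eigenChar {f : CuspForm (Gamma0 N) 2} (hf : f.IsNormalizedEigenform) (S : Set ℕ) :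
    ↥(CuspForm.heckeAlgebra N 2 S) →+* ℂ where
  toFun t := qCoeff ⇑((t : Module.End ℂ (CuspForm (Gamma0 N) 2)) f) 1
  map_one' := by simpa using hf.qCoeff_one
  map_mul' s t := by
    rw [Subalgebra.coe_mul, Module.End.mul_apply, apply_eq_qCoeff_smul hf _ t.2, map_smul,
      qCoeff_smul, qCoeff_smul, hf.qCoeff_one, mul_one, mul_comm]
  map_zero' := qCoeff_zero_form 1
  map_add' s t := by rw [Subalgebra.coe_add, LinearMap.add_apply, qCoeff_add]

theorem eigenChar_apply {f : CuspForm (Gamma0 N) 2} (hf : f.IsNormalizedEigenform) (S : Set ℕ)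
    (t : ↥(CuspForm.heckeAlgebra N 2 S)) :
    eigenChar hf S t = qCoeff ⇑((t : Module.End ℂ (CuspForm (Gamma0 N) 2)) f) 1 := rfl

theorem apply_eq_eigenChar_smul {f : CuspForm (Gamma0 N) 2} (hf : f.IsNormalizedEigenform)
    (S : Set ℕ) (t : ↥(CuspForm.heckeAlgebra N 2 S)) :
    (t : Module.End ℂ (CuspForm (Gamma0 N) 2)) f = eigenChar hf S t • f :=
  apply_eq_qCoeff_smul hf _ t.2

@[simp] theorem eigenChar_T {f : CuspForm (Gamma0 N) 2} (hf : f.IsNormalizedEigenform)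
    (S : Set ℕ) {ℓ : ℕ} (hℓ : ℓ.Prime) (hℓN : ¬ ℓ ∣ N) (hℓS : ℓ ∉ S) :
    eigenChar hf S (CuspForm.heckeAlgebra.T hℓ hℓN hℓS) = qCoeff f ℓ := by
  rw [eigenChar_apply, CuspForm.heckeAlgebra.coe_T, heckeTLin_eigenform hf, qCoeff_smul,
    hf.qCoeff_one, mul_one]

@[simp] theorem eigenChar_U {f : CuspForm (Gamma0 N) 2} (hf : f.IsNormalizedEigenform)
    (S : Set ℕ) {q : ℕ} (hq : q.Prime) (hqN : q ∣ N) (hqS : q ∉ S) :
    eigenChar hf S (CuspForm.heckeAlgebra.U hq hqN hqS) = qCoeff f q := by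
  rw [eigenChar_apply, CuspForm.heckeAlgebra.coe_U, heckeULin_eigenform hf hq, qCoeff_smul,
    hf.qCoeff_one, mul_one]

theorem eigenChar_inclusion {f : CuspForm (Gamma0 N) 2} (hf : f.IsNormalizedEigenform)
    {S S' : Set ℕ} (h : S' ⊆ S) (t : ↥(CuspForm.heckeAlgebra N 2 S)) :
    eigenChar hf S' (Subalgebra.inclusion (CuspForm.heckeAlgebra_mono h) t) =
      eigenChar hf S t := rfl

end Char

/-! ### The converse: eigenvectors normalize to eigenforms -/

section Recursion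

variable {g : CuspForm (Gamma0 N) 2} {a : ℕ → ℂ}

/-- The coefficient recursion satisfied by a Hecke eigenvector. -/
theorem qCoeff_mul_prime_of_eigen [NeZero N]
    (hT : ∀ (ℓ : ℕ) (hℓ : ℓ.Prime) (hℓN : ¬ ℓ ∣ N), CuspForm.heckeTLin 2 hℓ hℓN g = a ℓ • g)
    (hU : ∀ (q : ℕ) (hqN : q ∣ N), q.Prime → CuspForm.heckeULin 2 hqN g = a q • g)
    {p : ℕ} (hp : p.Prime) (n : ℕ) :
    qCoeff g (n * p) = a p * qCoeff g n -
      if p ∣ n ∧ ¬ p ∣ N then (p : ℂ) * qCoeff g (n / p) else 0 := by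
  by_cases hpN : p ∣ N
  · have h := congrArg (fun h : CuspForm (Gamma0 N) 2 => qCoeff ⇑h n) (hU p hpN hp)
    simp only [qCoeff_heckeULin, qCoeff_smul] at h
    simp [h, hpN]
  · have h := congrArg (fun h : CuspForm (Gamma0 N) 2 => qCoeff ⇑h n) (hT p hp hpN)
    simp only [qCoeff_heckeTLin, qCoeff_smul] at h
    norm_num at h
    simp only [hpN, not_false_eq_true, and_true]
    linear_combination h

theorem qCoeff_mul_of_coprime_of_eigen [NeZero N]
    (hT : ∀ (ℓ : ℕ) (hℓ : ℓ.Prime) (hℓN : ¬ ℓ ∣ N), CuspForm.heckeTLin 2 hℓ hℓN g = a ℓ • g)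
    (hU : ∀ (q : ℕ) (hqN : q ∣ N), q.Prime → CuspForm.heckeULin 2 hqN g = a q • g)
    (m n : ℕ) (h : m.Coprime n) :
    qCoeff g 1 * qCoeff g (m * n) = qCoeff g m * qCoeff g n := by
  induction n using Nat.strong_induction_on with
  | _ n ih =>
    rcases eq_or_ne n 0 with rfl | hn
    · simp
    rcases eq_or_ne n 1 with rfl | hn1
    · simp [mul_comm]
    obtain ⟨p, hp, hpn⟩ := Nat.exists_prime_and_dvd hn1
    obtain ⟨n', rfl⟩ := hpn
    have hn' : n' ≠ 0 := fun h0 => hn (by simp [h0])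
    have hpm : ¬ p ∣ m := fun hpm => hp.ne_one (Nat.eq_one_of_dvd_coprimes h hpm (dvd_mul_right p n'))
    have hlt : n' < p * n' := lt_mul_of_one_lt_left (Nat.pos_of_ne_zero hn') hp.one_lt
    have h' : m.Coprime n' := Nat.Coprime.coprime_dvd_right (dvd_mul_left n' p) h
    have e1 : qCoeff g 1 * qCoeff g (m * n') = qCoeff g m * qCoeff g n' := ih n' hlt h'
    rw [show m * (p * n') = (m * n') * p by ring, mul_comm p n',
      qCoeff_mul_prime_of_eigen hT hU hp, qCoeff_mul_prime_of_eigen hT hU hp]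
    by_cases hcond : p ∣ n' ∧ ¬ p ∣ N
    · obtain ⟨n'', hn''⟩ := hcond.1
      have e2 : qCoeff g 1 * qCoeff g (m * n'') = qCoeff g m * qCoeff g n'' := by
        refine ih n'' ?_ (Nat.Coprime.coprime_dvd_right ⟨p, by rw [hn'']; ring⟩ h')
        calc n'' ≤ n' := Nat.le_of_dvd (Nat.pos_of_ne_zero hn') ⟨p, by rw [hn'']; ring⟩
          _ < p * n' := hlt
      rw [if_pos hcond, if_pos ⟨dvd_mul_of_dvd_right hcond.1 m, hcond.2⟩, hn'',
        show m * (p * n'') = p * (m * n'') by ring, Nat.mul_div_cancel_left _ hp.pos,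
        Nat.mul_div_cancel_left _ hp.pos]
      rw [hn'', show m * (p * n'') = p * (m * n'') by ring] at e1
      linear_combination a p * e1 - (p : ℂ) * e2
    · have hcond' : ¬ (p ∣ m * n' ∧ ¬ p ∣ N) := fun hc =>
        hcond ⟨(hp.dvd_mul.mp hc.1).resolve_left hpm, hc.2⟩
      rw [if_neg hcond, if_neg hcond', sub_zero, sub_zero]
      linear_combination a p * e1

theorem qCoeff_one_ne_zero_of_eigen [NeZero N]
    (hT : ∀ (ℓ : ℕ) (hℓ : ℓ.Prime) (hℓN : ¬ ℓ ∣ N), CuspForm.heckeTLin 2 hℓ hℓN g = a ℓ • g)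
    (hU : ∀ (q : ℕ) (hqN : q ∣ N), q.Prime → CuspForm.heckeULin 2 hqN g = a q • g)
    (hg : g ≠ 0) : qCoeff g 1 ≠ 0 := by
  intro h1
  refine hg (cuspForm_ext_qCoeff fun n => ?_)
  rw [qCoeff_zero_form]
  induction n using Nat.strong_induction_on with
  | _ n ih =>
    rcases eq_or_ne n 0 with rfl | hn
    · simp
    rcases eq_or_ne n 1 with rfl | hn1
    · exact h1
    obtain ⟨p, hp, hpn⟩ := Nat.exists_prime_and_dvd hn1
    obtain ⟨n', rfl⟩ := hpn
    have hn' : n' ≠ 0 := fun h0 => hn (by simp [h0])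
    have hlt : n' < p * n' := lt_mul_of_one_lt_left (Nat.pos_of_ne_zero hn') hp.one_lt
    rw [mul_comm p n', qCoeff_mul_prime_of_eigen hT hU hp, ih n' hlt,
      ih (n' / p) ((Nat.div_le_self n' p).trans_lt hlt)]
    simp

theorem isNormalizedEigenform_of_eigen [NeZero N]
    (hT : ∀ (ℓ : ℕ) (hℓ : ℓ.Prime) (hℓN : ¬ ℓ ∣ N), CuspForm.heckeTLin 2 hℓ hℓN g = a ℓ • g)
    (hU : ∀ (q : ℕ) (hqN : q ∣ N), q.Prime → CuspForm.heckeULin 2 hqN g = a q • g)
    (h1 : qCoeff g 1 = 1) :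
    g.IsNormalizedEigenform ∧ ∀ p : ℕ, p.Prime → qCoeff g p = a p := by
  have hap : ∀ p : ℕ, p.Prime → qCoeff g p = a p := fun p hp => by
    simpa [h1, hp.ne_one] using qCoeff_mul_prime_of_eigen hT hU hp 1
  refine ⟨⟨h1, fun m n h => ?_, fun p r hp hpN => ?_, fun p r hp hpN => ?_⟩, hap⟩
  · simpa [h1] using qCoeff_mul_of_coprime_of_eigen hT hU m n h
  · rw [show p ^ (r + 2) = p ^ (r + 1) * p by ring, qCoeff_mul_prime_of_eigen hT hU hp,
      if_pos ⟨dvd_pow_self p r.succ_ne_zero, hpN⟩, hap p hp,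
      show p ^ (r + 1) = p * p ^ r by ring, Nat.mul_div_cancel_left _ hp.pos]
  · rw [show p ^ (r + 2) = p ^ (r + 1) * p by ring, qCoeff_mul_prime_of_eigen hT hU hp,
      if_neg (fun hc => hc.2 hpN), sub_zero, hap p hp]

end Recursion

section Converse

variable [NeZero N]

/-- An eigen-homomorphism is determined by its values on `T_ℓ` and `U_q`. -/
theorem heckeChar_ext {R : Type*} [CommRing R] {S : Set ℕ}
    {χ χ' : ↥(CuspForm.heckeAlgebra N 2 S) →+* R}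
    (hT : ∀ (ℓ : ℕ) (hℓ : ℓ.Prime) (hℓN : ¬ ℓ ∣ N) (hℓS : ℓ ∉ S),
      χ (CuspForm.heckeAlgebra.T hℓ hℓN hℓS) = χ' (CuspForm.heckeAlgebra.T hℓ hℓN hℓS))
    (hU : ∀ (q : ℕ) (hq : q.Prime) (hqN : q ∣ N) (hqS : q ∉ S),
      χ (CuspForm.heckeAlgebra.U hq hqN hqS) = χ' (CuspForm.heckeAlgebra.U hq hqN hqS)) :
    χ = χ' := by
  refine RingHom.ext fun ⟨x, hx⟩ => ?_
  induction hx using Algebra.adjoin_induction with
  | mem x hx =>
    rcases hx with ⟨ℓ, hℓ, hℓN, hℓS, rfl⟩ | ⟨q, hqN, hq, hqS, rfl⟩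
    · exact hT ℓ hℓ hℓN hℓS
    · exact hU q hq hqN hqS
  | algebraMap r =>
    have : (⟨algebraMap ℤ _ r, Subalgebra.algebraMap_mem _ r⟩ :
        ↥(CuspForm.heckeAlgebra N 2 S)) = (r : ↥(CuspForm.heckeAlgebra N 2 S)) :=
      Subtype.ext (by simp)
    rw [this, map_intCast, map_intCast]
  | add x y hx hy ihx ihy =>
    have : (⟨x + y, Subalgebra.add_mem _ hx hy⟩ : ↥(CuspForm.heckeAlgebra N 2 S)) =
        ⟨x, hx⟩ + ⟨y, hy⟩ := rfl
    rw [this, map_add, map_add, ihx, ihy]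
  | mul x y hx hy ihx ihy =>
    have : (⟨x * y, Subalgebra.mul_mem _ hx hy⟩ : ↥(CuspForm.heckeAlgebra N 2 S)) =
        ⟨x, hx⟩ * ⟨y, hy⟩ := rfl
    rw [this, map_mul, map_mul, ihx, ihy]

/-- A nonzero simultaneous eigenvector of the full Hecke algebra normalizes to a normalized
eigenform with the same eigen-character. -/
theorem exists_eigenform_of_eigenvector (χ : ↥(CuspForm.heckeAlgebra N 2 ∅) →+* ℂ)
    {g : CuspForm (Gamma0 N) 2} (hg : g ≠ 0)
    (hχ : ∀ t : ↥(CuspForm.heckeAlgebra N 2 ∅),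
      (t : Module.End ℂ (CuspForm (Gamma0 N) 2)) g = χ t • g) :
    ∃ (f : CuspForm (Gamma0 N) 2) (hf : f.IsNormalizedEigenform),
      eigenChar hf ∅ = χ ∧ g = qCoeff g 1 • f := by
  classical
  set a : ℕ → ℂ := fun p =>
    if hp : p.Prime then
      if hpN : p ∣ N then χ (CuspForm.heckeAlgebra.U hp hpN (Set.notMem_empty p))
      else χ (CuspForm.heckeAlgebra.T hp hpN (Set.notMem_empty p))
    else 0 with ha
  have hT : ∀ (ℓ : ℕ) (hℓ : ℓ.Prime) (hℓN : ¬ ℓ ∣ N),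
      CuspForm.heckeTLin 2 hℓ hℓN g = a ℓ • g := fun ℓ hℓ hℓN => by
    simp only [ha, dif_pos hℓ, dif_neg hℓN]
    exact hχ (CuspForm.heckeAlgebra.T hℓ hℓN (Set.notMem_empty ℓ))
  have hU : ∀ (q : ℕ) (hqN : q ∣ N), q.Prime →
      CuspForm.heckeULin 2 hqN g = a q • g := fun q hqN hq => by
    simp only [ha, dif_pos hq, dif_pos hqN]
    exact hχ (CuspForm.heckeAlgebra.U hq hqN (Set.notMem_empty q))
  have h1 := qCoeff_one_ne_zero_of_eigen hT hU hg
  set c := qCoeff g 1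
  have hT' : ∀ (ℓ : ℕ) (hℓ : ℓ.Prime) (hℓN : ¬ ℓ ∣ N),
      CuspForm.heckeTLin 2 hℓ hℓN (c⁻¹ • g) = a ℓ • (c⁻¹ • g) := fun ℓ hℓ hℓN => by
    rw [map_smul, hT ℓ hℓ hℓN, smul_comm]
  have hU' : ∀ (q : ℕ) (hqN : q ∣ N), q.Prime →
      CuspForm.heckeULin 2 hqN (c⁻¹ • g) = a q • (c⁻¹ • g) := fun q hqN hq => by
    rw [map_smul, hU q hqN hq, smul_comm]
  obtain ⟨hf, hap⟩ := isNormalizedEigenform_of_eigen hT' hU'
    (by rw [qCoeff_smul, inv_mul_cancel₀ h1])
  refine ⟨_, hf, ?_, by rw [smul_smul, mul_inv_cancel₀ h1, one_smul]⟩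
  refine heckeChar_ext (fun ℓ hℓ hℓN hℓS => ?_) (fun q hq hqN hqS => ?_)
  · rw [eigenChar_T, hap ℓ hℓ]
    simp [ha, hℓ, hℓN]
  · rw [eigenChar_U, hap q hq]
    simp [ha, hq, hqN]

/-- Two normalized eigenforms with the same prime coefficients are equal. -/
theorem eigenform_ext {f g : CuspForm (Gamma0 N) 2} (hf : f.IsNormalizedEigenform)
    (hg : g.IsNormalizedEigenform) (h : ∀ p : ℕ, p.Prime → qCoeff f p = qCoeff g p) : f = g := by
  have hd : f - g = 0 := by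
    by_contra hne
    refine qCoeff_one_ne_zero_of_eigen (a := fun p => qCoeff f p)
      (fun ℓ hℓ hℓN => ?_) (fun q hqN hq => ?_) hne ?_
    · rw [map_sub, heckeTLin_eigenform hf, heckeTLin_eigenform hg, smul_sub, h ℓ hℓ]
    · rw [map_sub, heckeULin_eigenform hf hq, heckeULin_eigenform hg hq, smul_sub, h q hq]
    · rw [← qCoeffLin_apply, map_sub, qCoeffLin_apply, qCoeffLin_apply, hf.qCoeff_one,
        hg.qCoeff_one, sub_self]
  exact sub_eq_zero.mp hd

end Converse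

end Fermat.Agent.Eigen

end
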