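import Mathlib.NumberTheory.ModularForms.Bounds
import Fermat.Agent.Eigen.Dictionary

/-!
# The trivial bound, strictly: `‖a_ℓ‖ < ℓ + 1` for weight two eigenforms
-/

set_option autoImplicit false

noncomputable section

open Filter UpperHalfPlane CongruenceSubgroup ModularFormClass
open scoped Topology MatrixGroups Modular

namespace Fermat.Agent.Eigen

variable {N : ℕ} [NeZero N]

/-- `Im τ * ‖f τ‖`. -/
def imMulNorm (f : CuspForm (Gamma0 N) 2) (τ : ℍ) : ℝ := τ.im * ‖f τ‖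

omit [NeZero N] in
theorem norm_petersson_self (f : CuspForm (Gamma0 N) 2) (τ : ℍ) :
    ‖petersson 2 f f τ‖ = imMulNorm f τ ^ 2 := by
  rw [petersson, norm_mul, norm_mul, Complex.norm_conj, imMulNorm, norm_zpow, Complex.norm_real,
    Real.norm_of_nonneg τ.im_pos.le, mul_pow, zpow_two]
  ring

omit [NeZero N] in
theorem imMulNorm_nonneg (f : CuspForm (Gamma0 N) 2) (τ : ℍ) : 0 ≤ imMulNorm f τ :=
  mul_nonneg τ.im_pos.le (norm_nonneg _)

omit [NeZero N] in
theorem imMulNorm_eq_sqrt (f : CuspForm (Gamma0 N) 2) :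
    imMulNorm f = fun τ => Real.sqrt ‖petersson 2 f f τ‖ := by
  ext τ
  rw [norm_petersson_self, Real.sqrt_sq (imMulNorm_nonneg f τ)]

omit [NeZero N] in
theorem continuous_imMulNorm (f : CuspForm (Gamma0 N) 2) : Continuous (imMulNorm f) := by
  rw [imMulNorm_eq_sqrt]
  fun_prop

omit [NeZero N] in
theorem imMulNorm_smul (f : CuspForm (Gamma0 N) 2) {g : SL(2, ℤ)} (hg : g ∈ Gamma0 N) (τ : ℍ) :
    imMulNorm f (g • τ) = imMulNorm f τ := by
  have h := SlashInvariantFormClass.norm_petersson_smul (f := f) (f' := f) (k := 2)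
    (Γ := Subgroup.map (Matrix.SpecialLinearGroup.mapGL ℝ) (Gamma0 N)) (τ := τ)
    (Subgroup.mem_map_of_mem _ hg)
  simp only [imMulNorm_eq_sqrt]
  exact congrArg Real.sqrt h

open ConjAct Pointwise Matrix.SpecialLinearGroup in
theorem tendsto_imMulNorm_smul (f : CuspForm (Gamma0 N) 2) (g : SL(2, ℤ)) :
    Tendsto (fun τ => imMulNorm f (g • τ)) atImInfty (𝓝 0) := by
  have : ((toConjAct (g : GL (Fin 2) ℝ)⁻¹) •
      Subgroup.map (mapGL ℝ) (Gamma0 N)).IsArithmetic := by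
    simpa [(show Rat.castHom ℝ = algebraMap ℚ ℝ by rfl), map_inv, map_mapGL]
      using! Subgroup.IsArithmetic.conj (Subgroup.map (mapGL ℝ) (Gamma0 N)) (mapGL ℚ g)⁻¹
  have h : IsZeroAtImInfty fun τ => petersson 2 f f (g • τ) := by
    simp_rw [← UpperHalfPlane.petersson_slash_SL]
    exact (CuspFormClass.zero_at_infty <| CuspForm.translate f g).petersson_isZeroAtImInfty_left 2 _
      (CuspForm.translate f g)
  have h' := (tendsto_zero_iff_norm_tendsto_zero.mp h).sqrt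
  rw [Real.sqrt_zero] at h'
  simpa only [imMulNorm_eq_sqrt] using h'

omit [NeZero N] in
theorem exists_imMulNorm_pos (f : CuspForm (Gamma0 N) 2) (hf : f ≠ 0) :
    ∃ τ, 0 < imMulNorm f τ := by
  by_contra! h
  refine hf (DFunLike.ext _ _ fun τ => ?_)
  have h1 := h τ
  simp only [imMulNorm] at h1
  have : ‖f τ‖ ≤ 0 := nonpos_of_mul_nonpos_right h1 τ.im_pos |> fun h => h
  simpa using this

/-- `Im τ * ‖f τ‖` attains its maximum. -/
theorem exists_max_imMulNorm (f : CuspForm (Gamma0 N) 2) (hf : f ≠ 0) :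
    ∃ τ₀, 0 < imMulNorm f τ₀ ∧ ∀ τ, imMulNorm f τ ≤ imMulNorm f τ₀ := by
  classical
  obtain ⟨τ₁, hτ₁⟩ := exists_imMulNorm_pos f hf
  have : Fintype (SL(2, ℤ) ⧸ Gamma0 N) := Subgroup.fintypeQuotientOfFiniteIndex
  have hev : ∀ᶠ x in atImInfty, ∀ q : SL(2, ℤ) ⧸ Gamma0 N,
      imMulNorm f (q.out⁻¹ • x) ≤ imMulNorm f τ₁ :=
    eventually_all.mpr fun q =>
      ((tendsto_imMulNorm_smul f q.out⁻¹).eventually_lt_const hτ₁).mono fun _ h => h.le
  rw [atImInfty, eventually_comap, eventually_atTop] at hev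
  obtain ⟨Y, hY⟩ := hev
  let K : Set ℍ :=
    (⋃ q : SL(2, ℤ) ⧸ Gamma0 N,
      (fun x : ℍ => q.out⁻¹ • x) '' ModularGroup.truncatedFundamentalDomain Y) ∪ {τ₁}
  have hK : IsCompact K := (isCompact_iUnion fun q =>
    (ModularGroup.isCompact_truncatedFundamentalDomain Y).image
      (by simp only [MulAction.compHom_smul_def]; fun_prop)).union isCompact_singleton
  obtain ⟨τ₀, hτ₀, hmax⟩ := hK.exists_isMaxOn ⟨τ₁, Or.inr rfl⟩ (continuous_imMulNorm f).continuousOn
  have h1 : imMulNorm f τ₁ ≤ imMulNorm f τ₀ := hmax (Or.inr rfl : τ₁ ∈ K)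
  refine ⟨τ₀, hτ₁.trans_le h1, fun τ => ?_⟩
  obtain ⟨g, hg⟩ := ModularGroup.exists_smul_mem_fd τ
  let q : SL(2, ℤ) ⧸ Gamma0 N := QuotientGroup.mk g
  have hmem : q.out⁻¹ * g ∈ Gamma0 N := QuotientGroup.eq.mp (QuotientGroup.out_eq' q)
  have e : imMulNorm f τ = imMulNorm f (q.out⁻¹ • (g • τ)) := by
    rw [← mul_smul, imMulNorm_smul f hmem]
  rw [e]
  rcases le_total Y (g • τ).im with h | h
  · exact (hY _ h _ rfl q).trans h1
  · exact hmax (Or.inl (Set.mem_iUnion.mpr ⟨q, ⟨g • τ, ⟨hg, h⟩, rfl⟩⟩) : q.out⁻¹ • (g • τ) ∈ K)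

/-- For a normalized eigenform of weight two and a prime `ℓ ∤ N`, `‖a_ℓ‖ < ℓ + 1`. -/
theorem norm_qCoeff_lt {f : CuspForm (Gamma0 N) 2} (hf : f.IsNormalizedEigenform) {ℓ : ℕ}
    (hℓ : ℓ.Prime) (hℓN : ¬ ℓ ∣ N) : ‖qCoeff f ℓ‖ < (ℓ : ℝ) + 1 := by
  by_contra! hle
  obtain ⟨τ₀, hpos, hmax⟩ := exists_max_imMulNorm f hf.ne_zero
  have hℓ0 : (0 : ℝ) < ℓ := by exact_mod_cast hℓ.pos
  have him : ∀ τ : ℍ, (ModularForm.heckeDiagMatrix ℓ • τ).im = ℓ * τ.im := fun τ => by
    have h := congrArg Complex.im (ModularForm.coe_heckeDiagMatrix_smul hℓ.ne_zero τ)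
    simpa [Complex.mul_im] using h
  have himj : ∀ (j : ℕ) (τ : ℍ), (ModularForm.heckeMatrix ℓ j • τ).im = τ.im / ℓ := fun j τ => by
    have h := congrArg Complex.im (ModularForm.coe_heckeMatrix_smul hℓ.ne_zero j τ)
    simpa [Complex.div_natCast_im] using h
  have hstep : ∀ τ, imMulNorm f τ = imMulNorm f τ₀ →
      imMulNorm f (ModularForm.heckeDiagMatrix ℓ • τ) = imMulNorm f τ₀ := by
    intro τ hτ
    refine le_antisymm (hmax _) ?_
    have h := DFunLike.congr_fun (heckeTLin_eigenform hf hℓ hℓN) τ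
    rw [CuspForm.heckeTLin_apply_apply, ModularForm.heckeT_apply _ hℓ.ne_zero] at h
    have h' : ‖qCoeff f ℓ‖ * imMulNorm f τ ≤
        (∑ j ∈ Finset.range ℓ, imMulNorm f (ModularForm.heckeMatrix ℓ j • τ)) +
          imMulNorm f (ModularForm.heckeDiagMatrix ℓ • τ) := by
      have hev : ‖(qCoeff f ℓ • f) τ‖ = ‖qCoeff f ℓ‖ * ‖f τ‖ := by
        rw [FunLike.coe_smul, Pi.smul_apply, smul_eq_mul, norm_mul]
      calc ‖qCoeff f ℓ‖ * imMulNorm f τ = τ.im * ‖(qCoeff f ℓ • f) τ‖ := by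
            rw [hev, imMulNorm]; ring
        _ ≤ τ.im * ((ℓ : ℝ)⁻¹ * ∑ j ∈ Finset.range ℓ, ‖f (ModularForm.heckeMatrix ℓ j • τ)‖ +
            (ℓ : ℝ) * ‖f (ModularForm.heckeDiagMatrix ℓ • τ)‖) := by
            refine mul_le_mul_of_nonneg_left ?_ τ.im_pos.le
            rw [← h]
            refine (norm_add_le _ _).trans (add_le_add ?_ ?_)
            · rw [norm_mul, norm_inv, Complex.norm_natCast]
              exact mul_le_mul_of_nonneg_left (norm_sum_le _ _) (by positivity)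
            · rw [norm_mul, norm_zpow, Complex.norm_natCast]
              norm_num
        _ = _ := by
            simp only [imMulNorm, him, himj, Finset.mul_sum, mul_add]
            congr 1
            · exact Finset.sum_congr rfl fun j _ => by ring
            · ring
    have hsum : (∑ j ∈ Finset.range ℓ, imMulNorm f (ModularForm.heckeMatrix ℓ j • τ)) ≤
        ℓ * imMulNorm f τ₀ := by
      refine (Finset.sum_le_sum fun j _ => hmax _).trans ?_
      simp
    rw [hτ] at h'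
    nlinarith [mul_le_mul_of_nonneg_right hle hpos.le]
  let seq : ℕ → ℍ := fun n => Nat.rec τ₀ (fun _ x => ModularForm.heckeDiagMatrix ℓ • x) n
  have hseq : ∀ n, imMulNorm f (seq n) = imMulNorm f τ₀ := by
    intro n
    induction n with
    | zero => rfl
    | succ n ih => exact hstep _ ih
  have hseqim : ∀ n, (seq n).im = (ℓ : ℝ) ^ n * τ₀.im := by
    intro n
    induction n with
    | zero => simp [seq]
    | succ n ih =>
      change (ModularForm.heckeDiagMatrix ℓ • seq n).im = _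
      rw [him, ih]
      ring
  have hev := (tendsto_imMulNorm_smul f 1).eventually_lt_const hpos
  rw [atImInfty, eventually_comap, eventually_atTop] at hev
  obtain ⟨Y, hY⟩ := hev
  obtain ⟨n, hn⟩ := pow_unbounded_of_one_lt (Y / τ₀.im)
    (show (1 : ℝ) < ℓ by exact_mod_cast hℓ.one_lt)
  have := hY ((seq n).im) (by
    rw [hseqim, ← div_le_iff₀ τ₀.im_pos]
    exact hn.le) (seq n) rfl
  rw [one_smul, hseq] at this
  exact lt_irrefl _ this

theorem qCoeff_ne_add_one {f : CuspForm (Gamma0 N) 2} (hf : f.IsNormalizedEigenform) {ℓ : ℕ}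
    (hℓ : ℓ.Prime) (hℓN : ¬ ℓ ∣ N) : qCoeff f ℓ ≠ (ℓ : ℂ) + 1 := fun h => by
  have := norm_qCoeff_lt hf hℓ hℓN
  rw [h, show (ℓ : ℂ) + 1 = ((ℓ + 1 : ℕ) : ℂ) by push_cast; rfl, Complex.norm_natCast] at this
  push_cast at this
  exact lt_irrefl _ this

end Fermat.Agent.Eigen

end
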