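import Mathlib.NumberTheory.ModularForms.QExpansion
import Mathlib.NumberTheory.ModularForms.CongruenceSubgroups
import Fermat.Prelude.Def_ModularForm_HeckeOperatorForms
import Fermat.Prelude.Def_FLTPrelim_Modularity
import Fermat.Prelude.Thm_CongruenceSubgroup_one_mem_strictPeriods_Gamma0
import Fermat.Prelude.Thm_ModularFormClass_qCoeff_heckeT
import Fermat.Prelude.Thm_ModularFormClass_qCoeff_heckeU
import Fermat.Prelude.Thm_UpperHalfPlane_eq_of_forall_qCoeff_eq

/-!
# `q`-coefficients of cusp forms on `Γ₀(N)`: linearity, extensionality, Hecke formulas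
-/

set_option autoImplicit false

noncomputable section

open UpperHalfPlane CongruenceSubgroup ModularFormClass

namespace Fermat.Agent.Eigen

variable {N : ℕ} {k : ℤ}

theorem periodic_ofComplex (f : CuspForm (Gamma0 N) k) :
    Function.Periodic (⇑f ∘ UpperHalfPlane.ofComplex) 1 :=
  SlashInvariantFormClass.periodic_comp_ofComplex f
    (CongruenceSubgroup.one_mem_strictPeriods_Gamma0 N)

theorem isBoundedAtImInfty (f : CuspForm (Gamma0 N) k) :
    UpperHalfPlane.IsBoundedAtImInfty (⇑f) := by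
  have : Fact (IsCusp OnePoint.infty
      (Subgroup.map (Matrix.SpecialLinearGroup.mapGL ℝ) (Gamma0 N))) :=
    ⟨Subgroup.isCusp_of_mem_strictPeriods one_pos
      (CongruenceSubgroup.one_mem_strictPeriods_Gamma0 N)⟩
  exact ModularFormClass.bdd_at_infty f

/-- A cusp form on `Γ₀(N)` is determined by its `q`-coefficients. -/
theorem cuspForm_ext_qCoeff {f g : CuspForm (Gamma0 N) k}
    (h : ∀ n, qCoeff f n = qCoeff g n) : f = g :=
  DFunLike.coe_injective <|
    UpperHalfPlane.eq_of_forall_qCoeff_eq (periodic_ofComplex f) (CuspFormClass.holo f)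
      (isBoundedAtImInfty f) (periodic_ofComplex g) (CuspFormClass.holo g)
      (isBoundedAtImInfty g) h

@[simp] theorem qCoeff_zero_index (f : CuspForm (Gamma0 N) k) : qCoeff f 0 = 0 :=
  CuspFormClass.qExpansion_coeff_zero f one_pos
    (CongruenceSubgroup.one_mem_strictPeriods_Gamma0 N)

theorem qCoeff_add (f g : CuspForm (Gamma0 N) k) (n : ℕ) :
    qCoeff ⇑(f + g) n = qCoeff f n + qCoeff g n := by
  simp only [qCoeff, FunLike.coe_add]
  rw [ModularForm.qExpansion_add one_pos (CongruenceSubgroup.one_mem_strictPeriods_Gamma0 N) f g,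
    map_add]

theorem qCoeff_smul (c : ℂ) (f : CuspForm (Gamma0 N) k) (n : ℕ) :
    qCoeff ⇑(c • f) n = c * qCoeff f n := by
  simp only [qCoeff, FunLike.coe_smul]
  rw [ModularForm.qExpansion_smul one_pos (CongruenceSubgroup.one_mem_strictPeriods_Gamma0 N) c f,
    PowerSeries.coeff_smul, smul_eq_mul]

/-- The `n`-th `q`-coefficient as a linear functional. -/
def qCoeffLin (N : ℕ) (k : ℤ) (n : ℕ) : CuspForm (Gamma0 N) k →ₗ[ℂ] ℂ where
  toFun f := qCoeff f n
  map_add' f g := qCoeff_add f g n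
  map_smul' c f := by simpa using qCoeff_smul c f n

@[simp] theorem qCoeffLin_apply (n : ℕ) (f : CuspForm (Gamma0 N) k) :
    qCoeffLin N k n f = qCoeff f n := rfl

theorem qCoeff_zero_form (n : ℕ) : qCoeff ⇑(0 : CuspForm (Gamma0 N) k) n = 0 :=
  map_zero (qCoeffLin N k n)

theorem qCoeff_heckeTLin (f : CuspForm (Gamma0 N) k) {p : ℕ} (hp : p.Prime) (hpN : ¬ p ∣ N)
    (n : ℕ) :
    qCoeff ⇑(CuspForm.heckeTLin k hp hpN f) n =
      qCoeff f (n * p) + if p ∣ n then (p : ℂ) ^ (k - 1) * qCoeff f (n / p) else 0 := by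
  rw [CuspForm.coe_heckeTLin_apply,
    ModularFormClass.qCoeff_heckeT f (CongruenceSubgroup.one_mem_strictPeriods_Gamma0 N)
      hp.ne_zero n]
  rfl

theorem qCoeff_heckeULin [NeZero N] (f : CuspForm (Gamma0 N) k) {p : ℕ} (hpN : p ∣ N) (n : ℕ) :
    qCoeff ⇑(CuspForm.heckeULin k hpN f) n = qCoeff f (n * p) := by
  rw [CuspForm.coe_heckeULin_apply,
    ModularFormClass.qCoeff_heckeU f (CongruenceSubgroup.one_mem_strictPeriods_Gamma0 N)
      (ne_zero_of_dvd_ne_zero (NeZero.ne N) hpN) n]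
  rfl

end Fermat.Agent.Eigen

end
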