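import Fermat.Agent.Eigen.Points

/-!
# Coefficients of eigenforms are algebraic integers generating a number field

The hypothesis used throughout is `[Module.Finite ℤ ↥(CuspForm.heckeAlgebra N 2 ∅)]`
(statement S22, or `moduleFinite_heckeAlgebra hint ∅`).
-/

set_option autoImplicit false

noncomputable section

open CongruenceSubgroup ModularFormClass
open scoped IsMulCommutative

namespace Fermat.Agent.Eigen

variable {N : ℕ} [NeZero N] [Module.Finite ℤ ↥(CuspForm.heckeAlgebra N 2 ∅)]
  {f : CuspForm (Gamma0 N) 2}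

omit [Module.Finite ℤ ↥(CuspForm.heckeAlgebra N 2 ∅)] in
/-- A predicate holding at `0`, at `1`, closed under the eigenform recursion and at the prime
coefficients, holds at all coefficients. -/
theorem qCoeff_mem_of_prime_mem {G : Type*} [SetLike G ℂ] [SubringClass G ℂ] (R : G)
    (hf : f.IsNormalizedEigenform) (hp : ∀ p : ℕ, p.Prime → qCoeff f p ∈ R) (n : ℕ) :
    qCoeff f n ∈ R := by
  induction n using Nat.strong_induction_on with
  | _ n ih =>
    rcases eq_or_ne n 0 with rfl | hn
    · rw [qCoeff_zero_index]; exact zero_mem R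
    rcases eq_or_ne n 1 with rfl | hn1
    · rw [hf.qCoeff_one]; exact one_mem R
    obtain ⟨p, hpp, hpn⟩ := Nat.exists_prime_and_dvd hn1
    obtain ⟨n', rfl⟩ := hpn
    have hn' : n' ≠ 0 := fun h0 => hn (by simp [h0])
    have hlt : n' < p * n' := lt_mul_of_one_lt_left (Nat.pos_of_ne_zero hn') hpp.one_lt
    rw [mul_comm p n', qCoeff_mul_prime_of_eigen (a := fun p => qCoeff f p)
      (fun ℓ hℓ hℓN => heckeTLin_eigenform hf hℓ hℓN)
      (fun q hqN hq => heckeULin_eigenform hf hq hqN) hpp]
    refine sub_mem (mul_mem (hp p hpp) (ih n' hlt)) ?_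
    split_ifs
    · exact mul_mem (natCast_mem R p) (ih _ ((Nat.div_le_self n' p).trans_lt hlt))
    · exact zero_mem R

omit [Module.Finite ℤ ↥(CuspForm.heckeAlgebra N 2 ∅)] in
/-- The Hecke operator at a prime, as an element of the full Hecke algebra. -/
theorem exists_eigenChar_eq_qCoeff_prime (hf : f.IsNormalizedEigenform) {p : ℕ} (hp : p.Prime) :
    ∃ t, eigenChar hf ∅ t = qCoeff f p := by
  by_cases hpN : p ∣ N
  · exact ⟨_, eigenChar_U hf ∅ hp hpN (Set.notMem_empty p)⟩
  · exact ⟨_, eigenChar_T hf ∅ hp hpN (Set.notMem_empty p)⟩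

theorem eigenChar_isIntegral (hf : f.IsNormalizedEigenform) (S : Set ℕ)
    (t : ↥(CuspForm.heckeAlgebra N 2 S)) : IsIntegral ℤ (eigenChar hf S t) := by
  rw [← eigenChar_inclusion hf (Set.empty_subset S)]
  exact (IsIntegral.of_finite ℤ _).map (eigenChar hf ∅).toIntAlgHom

theorem qCoeff_isIntegral (hf : f.IsNormalizedEigenform) (n : ℕ) :
    IsIntegral ℤ (qCoeff f n) := by
  refine qCoeff_mem_of_prime_mem (integralClosure ℤ ℂ) hf (fun p hp => ?_) n
  obtain ⟨t, ht⟩ := exists_eigenChar_eq_qCoeff_prime hf hp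
  exact ht ▸ eigenChar_isIntegral hf ∅ t

/-- The `n`-th coefficient as an algebraic integer. -/
def intCoeff (hf : f.IsNormalizedEigenform) (n : ℕ) : integralClosure ℤ ℂ :=
  ⟨qCoeff f n, qCoeff_isIntegral hf n⟩

@[simp] theorem coe_intCoeff (hf : f.IsNormalizedEigenform) (n : ℕ) :
    (intCoeff hf n : ℂ) = qCoeff f n := rfl

/-- The eigen-character with values in algebraic integers. -/
def eigenCharInt (hf : f.IsNormalizedEigenform) (S : Set ℕ) :
    ↥(CuspForm.heckeAlgebra N 2 S) →+* integralClosure ℤ ℂ :=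
  (eigenChar hf S).codRestrict (integralClosure ℤ ℂ) (eigenChar_isIntegral hf S)

@[simp] theorem coe_eigenCharInt (hf : f.IsNormalizedEigenform) (S : Set ℕ)
    (t : ↥(CuspForm.heckeAlgebra N 2 S)) :
    (eigenCharInt hf S t : ℂ) = eigenChar hf S t := rfl

@[simp] theorem eigenCharInt_T (hf : f.IsNormalizedEigenform) (S : Set ℕ) {ℓ : ℕ}
    (hℓ : ℓ.Prime) (hℓN : ¬ ℓ ∣ N) (hℓS : ℓ ∉ S) :
    eigenCharInt hf S (CuspForm.heckeAlgebra.T hℓ hℓN hℓS) = intCoeff hf ℓ :=
  Subtype.ext (by rw [coe_eigenCharInt, eigenChar_T, coe_intCoeff])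

@[simp] theorem eigenCharInt_U (hf : f.IsNormalizedEigenform) (S : Set ℕ) {q : ℕ}
    (hq : q.Prime) (hqN : q ∣ N) (hqS : q ∉ S) :
    eigenCharInt hf S (CuspForm.heckeAlgebra.U hq hqN hqS) = intCoeff hf q :=
  Subtype.ext (by rw [coe_eigenCharInt, eigenChar_U, coe_intCoeff])

omit [Module.Finite ℤ ↥(CuspForm.heckeAlgebra N 2 ∅)] [NeZero N] in
/-- The field generated by the coefficients. -/
theorem coeffField_le_iff {F : IntermediateField ℚ ℂ} :
    IntermediateField.adjoin ℚ (Set.range fun n => qCoeff f n) ≤ F ↔ ∀ n, qCoeff f n ∈ F :=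
  IntermediateField.adjoin_le_iff.trans Set.range_subset_iff

/-- The coefficients of an eigenform generate a number field. -/
theorem finiteDimensional_coeffField (hf : f.IsNormalizedEigenform) :
    FiniteDimensional ℚ ↥(IntermediateField.adjoin ℚ (Set.range fun n => qCoeff f n)) := by
  classical
  obtain ⟨s, hs⟩ :=
    (inferInstance : Module.Finite ℤ ↥(CuspForm.heckeAlgebra N 2 ∅)).fg_top
  let G : Finset ℂ := s.image (eigenChar hf ∅)
  have hint : ∀ x ∈ (G : Set ℂ), IsIntegral ℚ x := fun x hx => by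
    obtain ⟨t, -, rfl⟩ := Finset.mem_image.mp hx
    exact (eigenChar_isIntegral hf ∅ t).tower_top
  have := IntermediateField.finiteDimensional_adjoin (S := (G : Set ℂ)) hint
  have hle : IntermediateField.adjoin ℚ (Set.range fun n => qCoeff f n) ≤
      IntermediateField.adjoin ℚ (G : Set ℂ) := by
    refine coeffField_le_iff.mpr fun n => qCoeff_mem_of_prime_mem _ hf (fun p hp => ?_) n
    obtain ⟨t, ht⟩ := exists_eigenChar_eq_qCoeff_prime hf hp
    rw [← ht]
    clear ht
    have htop : t ∈ Submodule.span ℤ (s : Set ↥(CuspForm.heckeAlgebra N 2 ∅)) :=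
      hs ▸ Submodule.mem_top
    induction htop using Submodule.span_induction with
    | mem x hx => exact IntermediateField.subset_adjoin ℚ _ (Finset.mem_image_of_mem _ hx)
    | zero => rw [map_zero]; exact zero_mem _
    | add x y _ _ h h' => rw [map_add]; exact add_mem h h'
    | smul r x _ h => rw [map_zsmul]; exact zsmul_mem h r
  exact FiniteDimensional.of_injective (IntermediateField.inclusion hle).toLinearMap
    (IntermediateField.inclusion_injective hle)

theorem numberField_coeffField (hf : f.IsNormalizedEigenform) :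
    NumberField ↥(IntermediateField.adjoin ℚ (Set.range fun n => qCoeff f n)) :=
  have := finiteDimensional_coeffField hf
  { }

end Fermat.Agent.Eigen

end
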