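import Mathlib
import Fermat.Agent.Eigen.Extend

/-!
# Completing a point `R → ℤ̄` at a residue map `φ : ℤ̄ → k`

* `exists_completion_point`: a homomorphism `χ : R →+* integralClosure ℤ ℂ` from a finite
  `ℤ`-algebra and `φ : integralClosure ℤ ℂ →+* k` (`k` of characteristic `p`) give a complete DVR
  `𝒪` with finite residue field, a point `R →+* 𝒪` and `ι : ResidueField 𝒪 →+* k`
  reducing to `φ ∘ χ`.
* `exists_finiteField_lift`: finite extensions of finite subfields of `k` embed in `k`.
-/

set_option autoImplicit false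

noncomputable section

open IsLocalRing

namespace Fermat.Agent.Eigen

section DVR

variable (A : Type*) [CommRing A] [IsDomain A] [IsDiscreteValuationRing A]

/-- The completion of a discrete valuation ring. -/
abbrev Cmpl : Type _ := AdicCompletion (maximalIdeal A) A

theorem algebraMap_cmpl_injective : Function.Injective (algebraMap A (Cmpl A)) := fun a b h => by
  apply AdicCompletion.of_injective (maximalIdeal A) A
  simpa only [AdicCompletion.algebraMap_apply, Algebra.algebraMap_self, RingHom.id_apply] using h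

theorem cmpl_maximalIdeal (ϖ : A) (hϖ : Irreducible ϖ) :
    maximalIdeal (Cmpl A) = Ideal.span {algebraMap A (Cmpl A) ϖ} := by
  rw [AdicCompletion.maximalIdeal_eq_map]
  refine (congrArg (Ideal.map (algebraMap A (Cmpl A))) hϖ.maximalIdeal_eq).trans ?_
  rw [Ideal.map_span, Set.image_singleton]

theorem cmpl_factor (ϖ : A) (hϖ : Irreducible ϖ) (x : Cmpl A) (hx : x ≠ 0) :
    ∃ n : ℕ, Associated (algebraMap A (Cmpl A) ϖ ^ n) x := by
  have hm := cmpl_maximalIdeal A ϖ hϖ
  classical
  have hex : ∃ n : ℕ, x ∉ maximalIdeal (Cmpl A) ^ (n + 1) := by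
    by_contra! hall
    refine hx (IsHausdorff.haus (inferInstance : IsHausdorff (maximalIdeal (Cmpl A)) (Cmpl A)) x
      fun n => ?_)
    rw [SModEq.zero, smul_eq_mul, Ideal.mul_top]
    cases n with
    | zero => simp
    | succ n => exact hall n
  let n := Nat.find hex
  have hn : x ∈ maximalIdeal (Cmpl A) ^ n := by
    rcases h : n with _ | j
    · simp
    · exact not_not.mp (Nat.find_min hex (show j < Nat.find hex by omega))
  rw [hm, Ideal.span_singleton_pow, Ideal.mem_span_singleton] at hn
  obtain ⟨u, hu⟩ := hn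
  have hunit : IsUnit u := by
    by_contra hu'
    have hmem : u ∈ maximalIdeal (Cmpl A) := hu'
    refine Nat.find_spec hex ?_
    rw [pow_succ]
    refine (congrArg (fun z => z ∈ maximalIdeal (Cmpl A) ^ n * maximalIdeal (Cmpl A)) hu).mpr ?_
    refine Ideal.mul_mem_mul ?_ hmem
    rw [hm, Ideal.span_singleton_pow]
    exact Ideal.mem_span_singleton_self _
  exact ⟨n, hunit.unit, hu.symm⟩

instance cmpl_isDomain : IsDomain (Cmpl A) := by
  obtain ⟨ϖ, hϖ⟩ := IsDiscreteValuationRing.exists_irreducible A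
  have : NoZeroDivisors (Cmpl A) := by
    refine ⟨fun {x y} hxy => ?_⟩
    by_contra! h
    obtain ⟨m, u, hu⟩ := cmpl_factor A ϖ hϖ x h.1
    obtain ⟨n, v, hv⟩ := cmpl_factor A ϖ hϖ y h.2
    have : algebraMap A (Cmpl A) (ϖ ^ (m + n)) = 0 := by
      rw [map_pow, pow_add]
      have e : algebraMap A (Cmpl A) ϖ ^ m * algebraMap A (Cmpl A) ϖ ^ n * ((u * v : (Cmpl A)ˣ) :
          Cmpl A) = 0 := by
        rw [← hxy, ← hu, ← hv, Units.val_mul]
        ring
      exact (IsUnit.mul_left_eq_zero (u * v).isUnit).mp e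
    exact pow_ne_zero _ hϖ.ne_zero
      (algebraMap_cmpl_injective A (this.trans (map_zero (algebraMap A (Cmpl A))).symm))
  exact NoZeroDivisors.to_isDomain _

instance cmpl_isDiscreteValuationRing : IsDiscreteValuationRing (Cmpl A) := by
  obtain ⟨ϖ, hϖ⟩ := IsDiscreteValuationRing.exists_irreducible A
  refine IsDiscreteValuationRing.ofHasUnitMulPowIrreducibleFactorization
    ⟨algebraMap A (Cmpl A) ϖ, ?_, fun {x} hx => cmpl_factor A ϖ hϖ x hx⟩
  have hne : algebraMap A (Cmpl A) ϖ ≠ 0 := fun h =>
    hϖ.ne_zero (algebraMap_cmpl_injective A (h.trans (map_zero (algebraMap A (Cmpl A))).symm))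
  have hmem : ∀ a : Cmpl A, ¬ IsUnit a → algebraMap A (Cmpl A) ϖ ∣ a := fun a ha => by
    have h : a ∈ maximalIdeal (Cmpl A) := ha
    rw [cmpl_maximalIdeal A ϖ hϖ, Ideal.mem_span_singleton] at h
    exact h
  refine ⟨fun h => hϖ.not_isUnit (isUnit_of_map_unit (algebraMap A (Cmpl A)) ϖ h),
    fun a b hab => ?_⟩
  by_contra! h
  obtain ⟨c, rfl⟩ := hmem a h.1
  obtain ⟨d, rfl⟩ := hmem b h.2
  have : IsUnit (algebraMap A (Cmpl A) ϖ) :=
    IsUnit.of_mul_eq_one (c * d) (mul_left_cancel₀ hne (by rw [mul_one]; linear_combination -hab))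
  exact hϖ.not_isUnit (isUnit_of_map_unit _ ϖ this)

end DVR

section Lift

variable {p : ℕ} {k : Type*} [Field k] [CharP k p]

theorem isAlgClosed_range (φ : integralClosure ℤ ℂ →+* k) (hp : p.Prime) :
    ∃ (K₀ : Subfield k), IsAlgClosed K₀ ∧ φ.range = K₀.toSubring := by
  have hφp : φ (p : integralClosure ℤ ℂ) = 0 := by rw [map_natCast, CharP.cast_eq_zero]
  have : (RingHom.ker φ).IsPrime := RingHom.ker_isPrime φ
  have hmax : (RingHom.ker φ).IsMaximal := by
    have : ((RingHom.ker φ).comap (algebraMap ℤ (integralClosure ℤ ℂ))).IsMaximal := by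
      have hker : (RingHom.ker φ).comap (algebraMap ℤ (integralClosure ℤ ℂ)) =
          Ideal.span {(p : ℤ)} := by
        ext n
        rw [Ideal.mem_comap, RingHom.mem_ker, Ideal.mem_span_singleton, algebraMap_int_eq,
          eq_intCast, map_intCast, CharP.intCast_eq_zero_iff k p]
      rw [hker]
      exact PrincipalIdealRing.isMaximal_of_irreducible (Nat.prime_iff_prime_int.mp hp).irreducible
    exact Ideal.isMaximal_of_isIntegral_of_isMaximal_comap (R := ℤ) _ this
  have hinv : ∀ x ∈ φ.range, x⁻¹ ∈ φ.range := by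
    rintro _ ⟨a, rfl⟩
    rcases eq_or_ne (φ a) 0 with h0 | h0
    · rw [h0, inv_zero]; exact zero_mem _
    obtain ⟨b, m, hm, hb⟩ := hmax.exists_inv (x := a) (by rwa [RingHom.mem_ker])
    refine ⟨b, eq_inv_of_mul_eq_one_left ?_⟩
    have := congrArg φ hb
    rwa [map_add, map_mul, map_one, RingHom.mem_ker.mp hm, add_zero] at this
  refine ⟨{ φ.range with inv_mem' := hinv }, ?_, rfl⟩
  refine IsAlgClosed.of_exists_root _ fun q hq _ => ?_
  let K₀ : Subfield k := { φ.range with inv_mem' := hinv }
  let ψ : integralClosure ℤ ℂ →+* K₀ := φ.codRestrict K₀ fun a => ⟨a, rfl⟩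
  have hψ : Function.Surjective ψ := by
    rintro ⟨_, a, rfl⟩
    exact ⟨a, rfl⟩
  have hlifts : q ∈ Polynomial.lifts ψ :=
    (Polynomial.lifts_iff_coeff_lifts q).mpr fun n => hψ (q.coeff n)
  obtain ⟨Q, hQ, hdeg, hQm⟩ := Polynomial.lifts_and_natDegree_eq_and_monic hlifts hq
  rcases eq_or_ne q.natDegree 0 with h0 | h0
  · exact absurd (hq.natDegree_eq_zero.mp h0 ▸ isUnit_one : IsUnit q) ‹Irreducible q›.not_isUnit
  obtain ⟨z, hz⟩ := IsAlgClosed.exists_root (Q.map (algebraMap (integralClosure ℤ ℂ) ℂ)) (by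
    rw [Polynomial.degree_map_eq_of_injective (FaithfulSMul.algebraMap_injective _ _)]
    exact fun h => h0 (hdeg.symm.trans (Polynomial.natDegree_eq_of_degree_eq_some h)))
  have hzint : IsIntegral ℤ z := isIntegral_trans (A := integralClosure ℤ ℂ) z
    ⟨Q, hQm, by rwa [← Polynomial.eval_map]⟩
  refine ⟨ψ ⟨z, hzint⟩, ?_⟩
  have hroot : Q.eval (⟨z, hzint⟩ : integralClosure ℤ ℂ) = 0 := by
    apply FaithfulSMul.algebraMap_injective (integralClosure ℤ ℂ) ℂ
    have := hz
    rw [Polynomial.IsRoot, Polynomial.eval_map] at this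
    rw [map_zero, ← Polynomial.eval₂_at_apply]
    exact this
  rw [← hQ, Polynomial.eval_map, Polynomial.eval₂_at_apply, hroot, map_zero]

/-- A homomorphism of a finite field into `k` extends along any algebraic extension, as soon as
`k` receives a residue map of `ℤ̄`. -/
theorem exists_finiteField_lift (φ : integralClosure ℤ ℂ →+* k) (hp : p.Prime)
    {F F' : Type*} [Field F] [Finite F] [Field F'] [Algebra F F'] [Algebra.IsAlgebraic F F']
    (ι : F →+* k) : ∃ ι' : F' →+* k, ι'.comp (algebraMap F F') = ι := by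
  obtain ⟨K₀, hK, -⟩ := isAlgClosed_range φ hp
  have := Fintype.ofFinite F
  have hι : ∀ x, ι x ∈ K₀ := by
    intro x
    have hcard : 1 < Fintype.card F := Fintype.one_lt_card
    let f : Polynomial K₀ := Polynomial.X ^ Fintype.card F - Polynomial.X
    have hf : f ≠ 0 := FiniteField.X_pow_card_sub_X_ne_zero _ hcard
    have hsplit : f.Splits := IsAlgClosed.splits f
    have hx : ι x ∈ (f.map K₀.subtype).roots := by
      rw [Polynomial.mem_roots (Polynomial.map_ne_zero hf)]
      simp [f, ← map_pow, FiniteField.pow_card]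
    rw [hsplit.roots_map, Multiset.mem_map] at hx
    obtain ⟨r, -, hr⟩ := hx
    exact hr ▸ r.2
  let _ : Algebra F K₀ := (ι.codRestrict K₀ hι).toAlgebra
  have : FaithfulSMul F K₀ := (faithfulSMul_iff_algebraMap_injective _ _).mpr (RingHom.injective _)
  have : Module.IsTorsionFree F K₀ := Module.IsTorsionFree.of_smul_eq_zero fun a x h => by
    rw [Algebra.smul_def, mul_eq_zero] at h
    exact h.imp_left fun h0 => (algebraMap F K₀).injective (h0.trans (map_zero _).symm)
  let e : F' →ₐ[F] K₀ := IsAlgClosed.lift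
  refine ⟨K₀.subtype.comp e.toRingHom, RingHom.ext fun x => ?_⟩
  simp only [RingHom.comp_apply, AlgHom.toRingHom_eq_coe, RingHom.coe_coe, AlgHom.commutes]
  rfl

end Lift

section Point

/-- Completion of an algebraic point at a residue map. -/
theorem exists_completion_point {R : Type*} [CommRing R] [Module.Finite ℤ R]
    (χ : R →+* integralClosure ℤ ℂ) {p : ℕ} (hp : p.Prime) {k : Type*} [Field k] [CharP k p]
    (φ : integralClosure ℤ ℂ →+* k) :
    ∃ (𝒪 : Type) (_ : CommRing 𝒪) (_ : IsDomain 𝒪) (_ : IsDiscreteValuationRing 𝒪)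
      (_ : IsAdicComplete (IsLocalRing.maximalIdeal 𝒪) 𝒪)
      (_ : Finite (IsLocalRing.ResidueField 𝒪)) (_ : CharZero 𝒪)
      (χ' : R →+* 𝒪) (ι : IsLocalRing.ResidueField 𝒪 →+* k),
      (p : 𝒪) ∈ IsLocalRing.maximalIdeal 𝒪 ∧ RingHom.ker χ' = RingHom.ker χ ∧
      ∀ r, ι (IsLocalRing.residue 𝒪 (χ' r)) = φ (χ r) := by
  classical
  obtain ⟨s, hs⟩ := (inferInstance : Module.Finite ℤ R).fg_top
  let G : Finset ℂ := s.image fun r => (χ r : ℂ)
  have hint : ∀ x ∈ (G : Set ℂ), IsIntegral ℚ x := fun x hx => by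
    obtain ⟨t, -, rfl⟩ := Finset.mem_image.mp hx
    exact (χ t).2.tower_top
  have := IntermediateField.finiteDimensional_adjoin (S := (G : Set ℂ)) hint
  let F := IntermediateField.adjoin ℚ (G : Set ℂ)
  have : NumberField F := { }
  have hmem : ∀ r, (χ r : ℂ) ∈ F := fun r => by
    have htop : r ∈ Submodule.span ℤ (s : Set R) := hs ▸ Submodule.mem_top
    induction htop using Submodule.span_induction with
    | mem x hx => exact IntermediateField.subset_adjoin ℚ _ (Finset.mem_image_of_mem _ hx)
    | zero => rw [map_zero]; exact zero_mem _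
    | add x y _ _ h h' => rw [map_add]; exact add_mem h h'
    | smul c x _ h => rw [map_zsmul]; exact zsmul_mem h c
  have hF : ∀ x : F, IsIntegral ℤ (x : ℂ) → IsIntegral ℤ x := fun x hx =>
    (isIntegral_algHom_iff (F.val.restrictScalars ℤ) Subtype.val_injective).mp hx
  let g : R →+* NumberField.RingOfIntegers F :=
    (((algebraMap (integralClosure ℤ ℂ) ℂ).comp χ).codRestrict F hmem).codRestrict
      (integralClosure ℤ F) fun r => hF _ (χ r).2
  let j : NumberField.RingOfIntegers F →+* integralClosure ℤ ℂ :=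
    ((algebraMap F ℂ).comp (algebraMap (NumberField.RingOfIntegers F) F)).codRestrict
      (integralClosure ℤ ℂ) fun x => (NumberField.RingOfIntegers.isIntegral_coe x).map
        (F.val.restrictScalars ℤ)
  have hj : ∀ r, j (g r) = χ r := fun r => Subtype.ext rfl
  have hjinj : Function.Injective j := fun x y h => by
    have h' : (algebraMap F ℂ) (algebraMap (NumberField.RingOfIntegers F) F x) =
        (algebraMap F ℂ) (algebraMap (NumberField.RingOfIntegers F) F y) :=
      congrArg (fun z : integralClosure ℤ ℂ => (z : ℂ)) h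
    exact NumberField.RingOfIntegers.coe_injective ((algebraMap F ℂ).injective h')
  let P : Ideal (NumberField.RingOfIntegers F) := RingHom.ker (φ.comp j)
  have hP : P.IsPrime := RingHom.ker_isPrime _
  have hpP : (p : NumberField.RingOfIntegers F) ∈ P := by
    rw [RingHom.mem_ker, map_natCast, CharP.cast_eq_zero]
  have hP0 : P ≠ ⊥ := fun h => hp.ne_zero (by
    rw [h, Ideal.mem_bot] at hpP
    exact_mod_cast hpP)
  let L := Localization.AtPrime P
  have : IsDiscreteValuationRing L :=
    IsLocalization.AtPrime.isDiscreteValuationRing_of_dedekind_domain _ hP0 _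
  let π : L →+* k := IsLocalization.lift (M := P.primeCompl) (g := φ.comp j)
    fun y => Ne.isUnit fun h => y.2 h
  have hπ : IsLocalHom π := by
    refine ⟨fun x hx => ?_⟩
    obtain ⟨a, b, rfl⟩ := IsLocalization.exists_mk'_eq P.primeCompl x
    rw [IsLocalization.AtPrime.isUnit_mk'_iff L P]
    intro ha
    refine hx.ne_zero ?_
    rw [IsLocalization.lift_mk'_spec]
    simpa using (RingHom.mem_ker.mp ha : (φ.comp j) a = 0)
  let ι₀ : ResidueField L →+* k := IsLocalRing.ResidueField.lift π
  let e := RingEquiv.ofBijective _ (AdicCompletion.residueField_map_bijective L)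
  have : P.IsMaximal := hP.isMaximal hP0
  have : Finite (NumberField.RingOfIntegers F ⧸ P) := Ideal.finiteQuotientOfFreeOfNeBot P hP0
  have : Finite (ResidueField L) :=
    Finite.of_equiv _ (IsLocalization.AtPrime.equivQuotMaximalIdeal P L).toEquiv
  have : Finite (ResidueField (Cmpl L)) := Finite.of_equiv _ e.toEquiv
  have : CharZero (Cmpl L) := charZero_of_injective_ringHom
    (R := NumberField.RingOfIntegers F)
    (f := (algebraMap L (Cmpl L)).comp (algebraMap (NumberField.RingOfIntegers F) L))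
    ((algebraMap_cmpl_injective L).comp
      (IsLocalization.injective L P.primeCompl_le_nonZeroDivisors))
  refine ⟨Cmpl L, inferInstance, inferInstance, inferInstance, inferInstance, inferInstance,
    inferInstance, ((algebraMap L (Cmpl L)).comp (algebraMap _ L)).comp g,
    ι₀.comp e.symm.toRingHom, ?_, ?_, fun r => ?_⟩
  · rw [AdicCompletion.maximalIdeal_eq_map, ← map_natCast (algebraMap L (Cmpl L)),
      ← map_natCast (algebraMap (NumberField.RingOfIntegers F) L)]
    exact Ideal.mem_map_of_mem _ ((IsLocalization.AtPrime.to_map_mem_maximal_iff L P _).mpr hpP)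
  · ext r
    rw [RingHom.mem_ker, RingHom.mem_ker, RingHom.comp_apply, RingHom.comp_apply,
      map_eq_zero_iff _ (algebraMap_cmpl_injective L),
      map_eq_zero_iff _ (IsLocalization.injective L P.primeCompl_le_nonZeroDivisors), ← hj r,
      map_eq_zero_iff _ hjinj]
  · have h1 : e.symm (residue (Cmpl L)
        (algebraMap L (Cmpl L) (algebraMap (NumberField.RingOfIntegers F) L (g r)))) =
        residue L (algebraMap _ L (g r)) := by
      rw [RingEquiv.symm_apply_eq]
      rfl
    simp only [RingHom.comp_apply, RingEquiv.toRingHom_eq_coe, RingEquiv.coe_toRingHom, h1, ι₀,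
      IsLocalRing.ResidueField.lift_residue_apply, π, IsLocalization.lift_eq, hj]

end Point

end Fermat.Agent.Eigen

end
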