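import Fermat.Agent.Eigen.Coeff
import Fermat.Agent.Eigen.Completion

/-!
# Eigenform + residue map ⟹ point of the Hecke algebra in a complete DVR
-/

set_option autoImplicit false

noncomputable section

open CongruenceSubgroup ModularFormClass
open scoped IsMulCommutative

namespace Fermat.Agent.Eigen

/-- The residue field of a maximal ideal of `ℤ̄` containing `p` has characteristic `p`. -/
theorem charP_quotient_maximal {p : ℕ} (hp : p.Prime) (𝔪 : Ideal (integralClosure ℤ ℂ))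
    [𝔪.IsMaximal] (hpm : (p : integralClosure ℤ ℂ) ∈ 𝔪) :
    CharP (integralClosure ℤ ℂ ⧸ 𝔪) p := by
  have hchar := (CharP.charP_iff_prime_eq_zero (R := integralClosure ℤ ℂ ⧸ 𝔪) hp).mpr
    (by rw [← map_natCast (Ideal.Quotient.mk 𝔪), Ideal.Quotient.eq_zero_iff_mem]; exact hpm)
  exact hchar

variable {N : ℕ} [NeZero N] [Module.Finite ℤ ↥(CuspForm.heckeAlgebra N 2 ∅)]

/-- A normalized eigenform and a residue map `φ : ℤ̄ → k` give a complete discrete valuation ring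
`𝒪` with finite residue field, a point of the Hecke algebra away from `S` with the kernel of the
eigen-character, and an embedding of the residue field in `k` compatible with `φ`. -/
theorem exists_point_of_eigenform {f : CuspForm (Gamma0 N) 2} (hf : f.IsNormalizedEigenform)
    (S : Set ℕ) [Module.Finite ℤ ↥(CuspForm.heckeAlgebra N 2 S)]
    {p : ℕ} (hp : p.Prime) {k : Type*} [Field k] [CharP k p]
    (φ : integralClosure ℤ ℂ →+* k) :
    ∃ (𝒪 : Type) (_ : CommRing 𝒪) (_ : IsDomain 𝒪) (_ : IsDiscreteValuationRing 𝒪)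
      (_ : IsAdicComplete (IsLocalRing.maximalIdeal 𝒪) 𝒪)
      (_ : Finite (IsLocalRing.ResidueField 𝒪)) (_ : CharZero 𝒪)
      (χ : ↥(CuspForm.heckeAlgebra N 2 S) →+* 𝒪) (ι : IsLocalRing.ResidueField 𝒪 →+* k),
      (p : 𝒪) ∈ IsLocalRing.maximalIdeal 𝒪 ∧
      RingHom.ker χ = RingHom.ker (eigenChar hf S) ∧
      (∀ t, ι (IsLocalRing.residue 𝒪 (χ t)) = φ (eigenCharInt hf S t)) ∧
      (∀ (ℓ : ℕ) (hℓ : ℓ.Prime) (hℓN : ¬ ℓ ∣ N) (hℓS : ℓ ∉ S),
        ι (IsLocalRing.residue 𝒪 (χ (CuspForm.heckeAlgebra.T hℓ hℓN hℓS))) =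
          φ (intCoeff hf ℓ)) := by
  obtain ⟨𝒪, i1, i2, i3, i4, i5, i6, χ, ι, hp𝒪, hker, hι⟩ :=
    exists_completion_point (eigenCharInt hf S) hp φ
  refine ⟨𝒪, i1, i2, i3, i4, i5, i6, χ, ι, hp𝒪, ?_, hι, fun ℓ hℓ hℓN hℓS => ?_⟩
  · rw [hker]
    ext t
    rw [RingHom.mem_ker, RingHom.mem_ker, ← coe_eigenCharInt hf S t, ZeroMemClass.coe_eq_zero]
  · rw [hι, eigenCharInt_T]

end Fermat.Agent.Eigen

end
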