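import Fermat.Agent.Eigen.Residue
import Fermat.Agent.MF.IntStruct.Hecke

/-!
# Unconditional forms of the eigenform dictionary (using S22, S23)
-/

set_option autoImplicit false

noncomputable section

open CongruenceSubgroup ModularFormClass
open scoped IsMulCommutative

namespace Fermat.Agent.Eigen

variable {N : ℕ} [NeZero N]

theorem exists_eigenform_eigenChar_eq {S : Set ℕ}
    (χ : ↥(CuspForm.heckeAlgebra N 2 S) →+* ℂ) :
    ∃ (f : CuspForm (Gamma0 N) 2) (hf : f.IsNormalizedEigenform), eigenChar hf S = χ :=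
  exists_eigenform_of_char (MF.IntStruct.hasIntegralStructure N 2) χ

theorem qCoeff_isIntegral' {f : CuspForm (Gamma0 N) 2} (hf : f.IsNormalizedEigenform) (n : ℕ) :
    IsIntegral ℤ (qCoeff f n) :=
  have := MF.IntStruct.moduleFinite_heckeAlgebra N 2 ∅
  qCoeff_isIntegral hf n

theorem exists_point_of_eigenform' {f : CuspForm (Gamma0 N) 2} (hf : f.IsNormalizedEigenform)
    (S : Set ℕ) {p : ℕ} (hp : p.Prime) {k : Type*} [Field k] [CharP k p]
    (φ : integralClosure ℤ ℂ →+* k) :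
    ∃ (𝒪 : Type) (_ : CommRing 𝒪) (_ : IsDomain 𝒪) (_ : IsDiscreteValuationRing 𝒪)
      (_ : IsAdicComplete (IsLocalRing.maximalIdeal 𝒪) 𝒪)
      (_ : Finite (IsLocalRing.ResidueField 𝒪)) (_ : CharZero 𝒪)
      (χ : ↥(CuspForm.heckeAlgebra N 2 S) →+* 𝒪) (ι : IsLocalRing.ResidueField 𝒪 →+* k),
      (p : 𝒪) ∈ IsLocalRing.maximalIdeal 𝒪 ∧
      RingHom.ker χ = RingHom.ker (eigenChar hf S) ∧
      (∀ (ℓ : ℕ) (hℓ : ℓ.Prime) (hℓN : ¬ ℓ ∣ N) (hℓS : ℓ ∉ S),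
        ι (IsLocalRing.residue 𝒪 (χ (CuspForm.heckeAlgebra.T hℓ hℓN hℓS))) =
          φ ⟨qCoeff f ℓ, qCoeff_isIntegral' hf ℓ⟩) :=
  have := MF.IntStruct.moduleFinite_heckeAlgebra N 2 ∅
  have := MF.IntStruct.moduleFinite_heckeAlgebra N 2 S
  let ⟨𝒪, i1, i2, i3, i4, i5, i6, χ, ι, hp𝒪, hker, _, hT⟩ := exists_point_of_eigenform hf S hp φ
  ⟨𝒪, i1, i2, i3, i4, i5, i6, χ, ι, hp𝒪, hker, hT⟩

end Fermat.Agent.Eigen

end
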